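import Mathlib

/-!
# S31 / SS6 (helper262): `ℚ_[p] ⊗[ℤ] B` is reduced for a reduced ring `B`, finite over `ℤ`

Route: `ℚ ⊗[ℤ] B` is a localisation of `B`, hence reduced; it is a finite-dimensional reduced
`ℚ`-algebra, hence a finite product of (separable) field extensions of `ℚ`, hence formally
unramified over `ℚ`; base change to `ℚ_[p]` stays formally unramified, hence reduced.
-/

set_option autoImplicit false
set_option linter.unusedSectionVars false
set_option linter.style.haveILetI false

noncomputable section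

namespace Fermat.Agent.S31.H262

open scoped TensorProduct

section Reduced

variable (B : Type) [CommRing B] [Module.Finite ℤ B] [IsReduced B]

attribute [local instance] Algebra.TensorProduct.rightAlgebra in
theorem isReduced_rat_tensor : IsReduced (ℚ ⊗[ℤ] B) := by
  haveI : IsLocalization (Algebra.algebraMapSubmonoid B (nonZeroDivisors ℤ)) (ℚ ⊗[ℤ] B) :=
    IsLocalization.tensorRight (R := ℤ) (S := B) ℚ (nonZeroDivisors ℤ)
  exact isReduced_localizationPreserves
    (Algebra.algebraMapSubmonoid B (nonZeroDivisors ℤ)) (ℚ ⊗[ℤ] B) inferInstance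

theorem isArtinianRing_rat_tensor : IsArtinianRing (ℚ ⊗[ℤ] B) :=
  isArtinian_of_tower ℚ inferInstance

attribute [local instance] IsArtinianRing.fieldOfSubtypeIsMaximal in
theorem formallyEtale_rat_tensor : Algebra.FormallyEtale ℚ (ℚ ⊗[ℤ] B) := by
  haveI := isReduced_rat_tensor B
  haveI := isArtinianRing_rat_tensor B
  rw [Algebra.FormallyEtale.iff_exists_algEquiv_prod]
  exact ⟨MaximalSpectrum (ℚ ⊗[ℤ] B), inferInstance, fun I => (ℚ ⊗[ℤ] B) ⧸ I.asIdeal,
    inferInstance, inferInstance, (IsArtinianRing.equivPi (ℚ ⊗[ℤ] B)).restrictScalars ℚ,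
    fun I => inferInstance⟩

variable (K : Type) [Field K] [CharZero K]

/-- `K ⊗[ℤ] B` is reduced for every field `K` of characteristic zero. -/
theorem isReduced_field_tensor : IsReduced (K ⊗[ℤ] B) := by
  letI : Algebra ℚ K := DivisionRing.toRatAlgebra
  haveI := formallyEtale_rat_tensor B
  haveI : Algebra.FormallyUnramified K (K ⊗[ℚ] (ℚ ⊗[ℤ] B)) := inferInstance
  haveI : IsReduced (K ⊗[ℚ] (ℚ ⊗[ℤ] B)) :=
    Algebra.FormallyUnramified.isReduced_of_field K (K ⊗[ℚ] (ℚ ⊗[ℤ] B))
  exact isReduced_of_injective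
    (Algebra.TensorProduct.cancelBaseChange ℤ ℚ K K B).symm.toRingEquiv
    (Algebra.TensorProduct.cancelBaseChange ℤ ℚ K K B).symm.injective

end Reduced

end Fermat.Agent.S31.H262
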