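import Fermat.Agent.S31.H262.Strict
import Fermat.Agent.S31.H262.Reduced
import Fermat.Agent.S31.Defs

/-!
# S31 / piece D (helper262): `pts_of_reduced`, verbatim, by the `ℚ_[p] ⊗ R` route

For a reduced commutative ring `R`, finite and torsion-free over `ℤ`, the algebra
`E = ℚ_[p] ⊗[ℤ] R` is a finite reduced `ℚ_[p]`-algebra, hence (Artinian decomposition) the product
of the finitely many fields `L_J = E ⧸ J`, finite over `ℚ_[p]`.  The rings of integers
`intRing p L_J` are complete discrete valuation rings of characteristic zero with finite residue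
field (`PadicDVR.lean`), and the points `R → intRing p L_J` are jointly `p`-adically strict
(`Strict.lean`).  This gives the topological separation statement `PTS p R` of the row interface
without any use of completions of number fields.
-/

set_option autoImplicit false
set_option linter.unusedSectionVars false
set_option linter.style.haveILetI false

noncomputable section

namespace Fermat.Agent.S31.H262

open scoped TensorProduct
open IsLocalRing

section Points

variable (p : ℕ) [Fact p.Prime]
variable (B : Type) [CommRing B] [Module.Finite ℤ B] [Module.Free ℤ B] [IsReduced B]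

attribute [local instance] IsArtinianRing.fieldOfSubtypeIsMaximal

theorem isArtinianRing_padic_tensor : IsArtinianRing (ℚ_[p] ⊗[ℤ] B) :=
  isArtinian_of_tower ℚ_[p] inferInstance

theorem isReduced_padic_tensor : IsReduced (ℚ_[p] ⊗[ℤ] B) :=
  isReduced_field_tensor B ℚ_[p]

/-- **Strict `p`-adic points** (unbundled form): a reduced ring, finite free over `ℤ`, has finitely
many points with values in complete discrete valuation rings of characteristic zero with finite
residue fields of characteristic `p`, which are jointly `p`-adically strict. -/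
theorem exists_padic_points :
    ∃ (ι : Type) (_ : Finite ι) (𝒪 : ι → Type) (_ : ∀ j, CommRing (𝒪 j))
      (_ : ∀ j, IsDomain (𝒪 j)) (_ : ∀ j, IsDiscreteValuationRing (𝒪 j))
      (_ : ∀ j, IsAdicComplete (maximalIdeal (𝒪 j)) (𝒪 j))
      (_ : ∀ j, Finite (ResidueField (𝒪 j))) (_ : ∀ j, CharZero (𝒪 j))
      (χ : ∀ j, B →+* 𝒪 j),
      (∀ j, ((p : ℕ) : 𝒪 j) ∈ maximalIdeal (𝒪 j)) ∧
      ∀ n : ℕ, ∃ m : ℕ, ∀ t : B, (∀ j, χ j t ∈ maximalIdeal (𝒪 j) ^ m) →
        t ∈ Ideal.span {((p : ℕ) : B) ^ n} := by
  haveI := isArtinianRing_padic_tensor p B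
  haveI := isReduced_padic_tensor p B
  let E := ℚ_[p] ⊗[ℤ] B
  let L : MaximalSpectrum E → Type := fun J => E ⧸ J.asIdeal
  let Φ : E →ₐ[ℚ_[p]] (∀ J, L J) := ((IsArtinianRing.equivPi E).restrictScalars ℚ_[p]).toAlgHom
  have hΦ : Function.Injective Φ := ((IsArtinianRing.equivPi E).restrictScalars ℚ_[p]).injective
  refine ⟨MaximalSpectrum E, inferInstance, fun J => intRing p (L J), fun J => inferInstance,
    fun J => inferInstance, fun J => inferInstance, fun J => inferInstance,
    fun J => inferInstance, fun J => inferInstance, fun J => pt p B L Φ J, ?_, ?_⟩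
  · intro J
    exact natCast_p_mem_maximalIdeal p (L J)
  · intro n
    exact strict_of_injective hΦ n

end Points

section PTS

open Fermat.Agent.S31

/-- **Piece D of row S31** (`Skeleton.pts_of_reduced`, verbatim).  A reduced, torsion-free
commutative ring, finite over `ℤ`, has topologically separating `p`-adic points. -/
theorem pts_of_reduced (p : ℕ) (hp : p.Prime) (R : Type) [CommRing R] [Module.Finite ℤ R]
    [IsReduced R] [IsAddTorsionFree R] : PTS p R := by
  classical
  haveI : Fact p.Prime := ⟨hp⟩
  obtain ⟨ι, hι, 𝒪, i1, i2, i3, i4, i5, i6, χ, hpm, hstrict⟩ := exists_padic_points p R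
  haveI : Fintype ι := Fintype.ofFinite ι
  intro m _ hpmem n
  obtain ⟨n', hn'⟩ := hstrict n
  refine ⟨(Finset.univ : Finset ι).toList.map
    (fun j => (⟨𝒪 j, hpm j, χ j⟩ : PadicPoint p R)), n', fun t ht => ?_⟩
  have h1 : t ∈ Ideal.span {((p : ℕ) : R) ^ n} := by
    apply hn'
    intro j
    exact ht ⟨𝒪 j, hpm j, χ j⟩ (List.mem_map.mpr ⟨j, by simp, rfl⟩)
  have h2 : Ideal.span {((p : ℕ) : R) ^ n} ≤ m ^ n := by
    rw [Ideal.span_le, Set.singleton_subset_iff]
    exact Ideal.pow_mem_pow hpmem n
  exact h2 h1

end PTS

end Fermat.Agent.S31.H262
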