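import Mathlib
import Fermat.Prelude.Thm_IsLocalRing_isAdicComplete_of_module_finite
import Fermat.Prelude.Thm_Algebra_finite_maximalSpectrum_and_bijective_localization_of_module_finite

/-!
# S31 / SS6 (helper262): the ring of integers of a finite extension of `ℚ_p` is a complete DVR

For a field `L : Type` which is a finite extension of `ℚ_[p]`, the integral closure
`C = integralClosure ℤ_[p] L` is a complete discrete valuation ring of characteristic zero with
finite residue field, and `p` lies in its maximal ideal.  Everything is derived algebraically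
(Dedekind + the Prelude decomposition of finite algebras over complete local rings).
-/

set_option autoImplicit false
set_option linter.unusedSectionVars false
set_option linter.style.haveILetI false

noncomputable section

namespace Fermat.Agent.S31.H262

open IsLocalRing

section PadicDVR

variable (p : ℕ) [Fact p.Prime]
variable (L : Type) [Field L] [Algebra ℚ_[p] L] [Algebra ℤ_[p] L] [IsScalarTower ℤ_[p] ℚ_[p] L]
  [FiniteDimensional ℚ_[p] L]

/-- The ring of integers of `L`. -/
abbrev intRing : Subalgebra ℤ_[p] L := integralClosure ℤ_[p] L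

instance intRing_isDedekindDomain : IsDedekindDomain (intRing p L) :=
  integralClosure.isDedekindDomain ℤ_[p] ℚ_[p] L

instance intRing_moduleFinite : Module.Finite ℤ_[p] (intRing p L) :=
  IsIntegralClosure.finite ℤ_[p] ℚ_[p] L (intRing p L)

instance intRing_isNoetherianRing : IsNoetherianRing (intRing p L) :=
  IsIntegralClosure.isNoetherianRing ℤ_[p] ℚ_[p] L (intRing p L)

theorem algebraMap_padicInt_injective : Function.Injective (algebraMap ℤ_[p] L) := by
  rw [IsScalarTower.algebraMap_eq ℤ_[p] ℚ_[p] L]
  exact (algebraMap ℚ_[p] L).injective.comp (IsFractionRing.injective ℤ_[p] ℚ_[p])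

instance intRing_charZero : CharZero (intRing p L) := by
  haveI : CharZero L := charZero_of_injective_algebraMap (algebraMap ℚ_[p] L).injective
  exact charZero_of_injective_algebraMap (R := ℤ) (A := intRing p L)
    (fun a b h => by
      have h' := congrArg (fun x : intRing p L => (x : L)) h
      simp only [eq_intCast] at h'
      exact_mod_cast h')

/-- `p` is not a unit of the ring of integers. -/
theorem not_isUnit_p : ¬ IsUnit ((p : ℕ) : intRing p L) := by
  intro hu
  obtain ⟨u, hu⟩ := hu
  -- the inverse is integral over `ℤ_[p]` and lies in `ℚ_[p]`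
  have hinv : IsIntegral ℤ_[p] ((↑u⁻¹ : intRing p L) : L) := (↑u⁻¹ : intRing p L).2
  have hmul : ((↑u⁻¹ : intRing p L) : L) * (p : L) = 1 := by
    have h1 : (↑u⁻¹ : intRing p L) * (↑u : intRing p L) = 1 := by simp
    rw [hu] at h1
    have h2 := congrArg (fun x : intRing p L => (x : L)) h1
    simpa using h2
  have hp0 : (p : L) ≠ 0 := by
    haveI : CharZero L := charZero_of_injective_algebraMap (algebraMap ℚ_[p] L).injective
    exact_mod_cast (Fact.out : p.Prime).ne_zero
  have heq : ((↑u⁻¹ : intRing p L) : L) = algebraMap ℚ_[p] L ((p : ℚ_[p])⁻¹) := by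
    rw [map_inv₀, map_natCast]
    exact eq_inv_of_mul_eq_one_left hmul
  rw [heq] at hinv
  have hinv' : IsIntegral ℤ_[p] ((p : ℚ_[p])⁻¹) :=
    (isIntegral_algebraMap_iff (algebraMap ℚ_[p] L).injective).mp hinv
  obtain ⟨y, hy⟩ := (IsIntegrallyClosed.isIntegral_iff (R := ℤ_[p]) (K := ℚ_[p])).mp hinv'
  have hpy : (p : ℤ_[p]) * y = 1 := by
    apply IsFractionRing.injective ℤ_[p] ℚ_[p]
    rw [map_mul, hy, map_natCast, map_one]
    have : (p : ℚ_[p]) ≠ 0 := by exact_mod_cast (Fact.out : p.Prime).ne_zero
    field_simp
  have : IsUnit (p : ℤ_[p]) := IsUnit.of_mul_eq_one _ hpy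
  exact PadicInt.prime_p.not_isUnit this

theorem intRing_not_isField : ¬ IsField (intRing p L) := by
  intro hF
  apply not_isUnit_p p L
  have hp0 : ((p : ℕ) : intRing p L) ≠ 0 := by
    exact_mod_cast (Fact.out : p.Prime).ne_zero
  obtain ⟨b, hb⟩ := hF.mul_inv_cancel hp0
  exact IsUnit.of_mul_eq_one _ hb

/-- The ring of integers is a local ring (it is a domain, finite over the complete local ring
`ℤ_[p]`, hence it is the product of its localisations at its finitely many maximal ideals). -/
instance intRing_isLocalRing : IsLocalRing (intRing p L) := by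
  classical
  obtain ⟨-, hbij, -, -⟩ :=
    Algebra.finite_maximalSpectrum_and_bijective_localization_of_module_finite (𝒪 := ℤ_[p])
      (intRing p L)
  -- at most one maximal ideal
  have huniq : ∀ I J : MaximalSpectrum (intRing p L), I = J := by
    intro I J
    by_contra hIJ
    obtain ⟨e, he⟩ := hbij.2 (Function.update
      (0 : ∀ K : MaximalSpectrum (intRing p L), Localization.AtPrime K.asIdeal) I 1)
    have hI : algebraMap (intRing p L) (Localization.AtPrime I.asIdeal) e = 1 := by
      have := congrFun he I
      simpa using this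
    have hJ : algebraMap (intRing p L) (Localization.AtPrime J.asIdeal) e = 0 := by
      have := congrFun he J
      simpa [Function.update_of_ne (Ne.symm hIJ)] using this
    have hprod : e * (1 - e) = 0 := by
      apply hbij.1
      funext K
      simp only [RingHom.pi_apply, map_mul, map_sub, map_one, map_zero]
      by_cases hK : K = I
      · subst hK; rw [hI]; simp
      · have : algebraMap (intRing p L) (Localization.AtPrime K.asIdeal) e = 0 := by
          have := congrFun he K
          simpa [Function.update_of_ne hK] using this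
        rw [this]; simp
    rcases mul_eq_zero.mp hprod with h0 | h1
    · rw [h0, map_zero] at hI
      exact zero_ne_one hI
    · have : e = 1 := (sub_eq_zero.mp h1).symm
      rw [this, map_one] at hJ
      exact one_ne_zero hJ
  obtain ⟨M, hM⟩ := Ideal.exists_maximal (intRing p L)
  refine IsLocalRing.of_unique_max_ideal ⟨M, hM, fun J hJ => ?_⟩
  exact congrArg MaximalSpectrum.asIdeal (huniq ⟨J, hJ⟩ ⟨M, hM⟩)

instance intRing_isDiscreteValuationRing : IsDiscreteValuationRing (intRing p L) :=
  ((IsDiscreteValuationRing.TFAE (intRing p L) (intRing_not_isField p L)).out 0 2).mpr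
    (intRing_isDedekindDomain p L)

theorem natCast_p_mem_maximalIdeal : ((p : ℕ) : intRing p L) ∈ maximalIdeal (intRing p L) :=
  (IsLocalRing.mem_maximalIdeal _).mpr (not_isUnit_p p L)

instance intRing_isLocalHom : IsLocalHom (algebraMap ℤ_[p] (intRing p L)) := by
  constructor
  intro a ha
  by_contra hna
  -- `a` is a non-unit of `ℤ_[p]`, so `p ∣ a`, hence the image is in the maximal ideal
  have hmem : a ∈ maximalIdeal ℤ_[p] := (IsLocalRing.mem_maximalIdeal _).mpr hna
  rw [PadicInt.maximalIdeal_eq_span_p, Ideal.mem_span_singleton] at hmem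
  obtain ⟨b, rfl⟩ := hmem
  rw [map_mul, map_natCast] at ha
  exact not_isUnit_p p L (isUnit_of_mul_isUnit_left ha)

instance intRing_isAdicComplete :
    IsAdicComplete (maximalIdeal (intRing p L)) (intRing p L) :=
  IsLocalRing.isAdicComplete_of_module_finite (𝒪 := ℤ_[p])

instance intRing_finite_residueField : Finite (ResidueField (intRing p L)) :=
  Module.finite_of_finite (ResidueField ℤ_[p])

/-- Powers of the maximal ideal are cofinal with powers of `p`. -/
theorem exists_maximalIdeal_pow_le_span_p_pow (n : ℕ) :
    ∃ m : ℕ, maximalIdeal (intRing p L) ^ m ≤ Ideal.span {((p : ℕ) : intRing p L) ^ n} := by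
  have hp0 : ((p : ℕ) : intRing p L) ≠ 0 := by
    exact_mod_cast (Fact.out : p.Prime).ne_zero
  have hne : Ideal.span {((p : ℕ) : intRing p L)} ≠ ⊥ := by
    rw [Ne, Ideal.span_singleton_eq_bot]
    exact hp0
  have hall : ∀ I : Ideal (intRing p L), I ≠ ⊥ → ∃ n, I = maximalIdeal (intRing p L) ^ n :=
    ((IsDiscreteValuationRing.TFAE (intRing p L) (intRing_not_isField p L)).out 0 6).mp
      (intRing_isDiscreteValuationRing p L)
  obtain ⟨e, he⟩ := hall _ hne
  refine ⟨e * n, ?_⟩
  rw [pow_mul, ← he, Ideal.span_singleton_pow]

end PadicDVR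

end Fermat.Agent.S31.H262
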