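import Fermat.Agent.S31.H262.PadicDVR

/-!
# S31 / SS6 (helper262): joint `p`-adic strictness of a separating family of points

`B` is a commutative ring, finite free over `ℤ`; `E = ℚ_[p] ⊗[ℤ] B`; `L j` is a finite family of
finite field extensions of `ℚ_[p]` and `Φ : E →ₐ[ℚ_[p]] Π j, L j` is injective.  Then the points
`B → intRing p (L j)` are jointly `p`-adically strict.
-/

set_option autoImplicit false
set_option linter.unusedSectionVars false
set_option linter.style.haveILetI false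

noncomputable section

namespace Fermat.Agent.S31.H262

open scoped TensorProduct
open IsLocalRing

section Lattice

variable (p : ℕ) [Fact p.Prime]
variable (B : Type) [CommRing B]

/-- The `ℤ_[p]`-lattice in `E = ℚ_[p] ⊗[ℤ] B` spanned by the pure tensors `1 ⊗ b`. -/
def lat : Submodule ℤ_[p] (ℚ_[p] ⊗[ℤ] B) :=
  Submodule.span ℤ_[p] (Set.range fun b : B => (1 : ℚ_[p]) ⊗ₜ[ℤ] b)

theorem one_tmul_mem_lat (b : B) : (1 : ℚ_[p]) ⊗ₜ[ℤ] b ∈ lat p B :=
  Submodule.subset_span ⟨b, rfl⟩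

theorem padicInt_tmul_mem_lat (a : ℤ_[p]) (b : B) : (a : ℚ_[p]) ⊗ₜ[ℤ] b ∈ lat p B := by
  have h : (a : ℚ_[p]) ⊗ₜ[ℤ] b = a • ((1 : ℚ_[p]) ⊗ₜ[ℤ] b) := by
    rw [TensorProduct.smul_tmul', Algebra.smul_def, mul_one]
    rfl
  rw [h]
  exact (lat p B).smul_mem a (one_tmul_mem_lat p B b)

/-- Every `p`-adic number becomes integral after multiplication by a power of `p`. -/
theorem exists_pow_mul_mem_padicInt (x : ℚ_[p]) :
    ∃ (c : ℕ) (a : ℤ_[p]), (p : ℚ_[p]) ^ c * x = (a : ℚ_[p]) := by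
  have hp1 : ‖(p : ℚ_[p])‖ < 1 := Padic.norm_p_lt_one
  have hpos : (0 : ℝ) < 1 / (‖x‖ + 1) := by positivity
  obtain ⟨c, hc⟩ := exists_pow_lt_of_lt_one hpos hp1
  have hle : ‖(p : ℚ_[p]) ^ c * x‖ ≤ 1 := by
    rw [norm_mul, norm_pow]
    have h1 : ‖(p : ℚ_[p])‖ ^ c * ‖x‖ ≤ 1 / (‖x‖ + 1) * ‖x‖ :=
      mul_le_mul_of_nonneg_right hc.le (norm_nonneg x)
    have h2 : 1 / (‖x‖ + 1) * ‖x‖ ≤ 1 := by
      rw [one_div, inv_mul_le_iff₀ (by positivity)]
      linarith [norm_nonneg x]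
    exact h1.trans h2
  exact ⟨c, ⟨(p : ℚ_[p]) ^ c * x, hle⟩, rfl⟩

/-- Every element of `E` lies in the lattice after multiplication by a power of `p`. -/
theorem exists_pow_smul_mem_lat (e : ℚ_[p] ⊗[ℤ] B) :
    ∃ c : ℕ, ∀ c' : ℕ, c ≤ c' → ((p : ℚ_[p]) ^ c') • e ∈ lat p B := by
  induction e using TensorProduct.induction_on with
  | zero => exact ⟨0, fun c' _ => by rw [smul_zero]; exact (lat p B).zero_mem⟩
  | tmul x b =>
    obtain ⟨c, a, hca⟩ := exists_pow_mul_mem_padicInt p x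
    refine ⟨c, fun c' hc' => ?_⟩
    obtain ⟨d, rfl⟩ := Nat.exists_eq_add_of_le hc'
    have h : ((p : ℚ_[p]) ^ (c + d)) • (x ⊗ₜ[ℤ] b) =
        (((p : ℤ_[p]) ^ d * a : ℤ_[p]) : ℚ_[p]) ⊗ₜ[ℤ] b := by
      rw [TensorProduct.smul_tmul', smul_eq_mul, pow_add, mul_comm ((p : ℚ_[p]) ^ c), mul_assoc, hca]
      simp
    rw [h]
    exact padicInt_tmul_mem_lat p B _ b
  | add x y hx hy =>
    obtain ⟨c1, h1⟩ := hx
    obtain ⟨c2, h2⟩ := hy
    refine ⟨max c1 c2, fun c' hc' => ?_⟩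
    rw [smul_add]
    exact (lat p B).add_mem (h1 c' (le_trans (le_max_left _ _) hc'))
      (h2 c' (le_trans (le_max_right _ _) hc'))

end Lattice

section Coordinates

variable (p : ℕ) [Fact p.Prime]
variable (B : Type) [CommRing B] [Module.Finite ℤ B] [Module.Free ℤ B]

/-- Coordinates lemma: if `p⁻ⁿ • (1 ⊗ t)` lies in the lattice, then `t ∈ pⁿ B`. -/
theorem mem_span_of_inv_smul_mem_lat (n : ℕ) (t : B)
    (h : (((p : ℚ_[p]) ^ n)⁻¹) • ((1 : ℚ_[p]) ⊗ₜ[ℤ] t) ∈ lat p B) :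
    t ∈ Ideal.span {((p : ℕ) : B) ^ n} := by
  classical
  set b := Module.Free.chooseBasis ℤ B with hb
  set bE := Algebra.TensorProduct.basis ℚ_[p] b with hbE
  -- the lattice is contained in the `ℤ_[p]`-span of the basis
  have hle : lat p B ≤ Submodule.span ℤ_[p] (Set.range bE) := by
    unfold lat
    rw [Submodule.span_le]
    rintro _ ⟨x, rfl⟩
    rw [SetLike.mem_coe, Module.Basis.mem_span_iff_repr_mem]
    intro i
    refine ⟨((b.repr x i : ℤ) : ℤ_[p]), ?_⟩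
    rw [hbE, Algebra.TensorProduct.basis_repr_tmul]
    simp
  have h' := hle h
  rw [Module.Basis.mem_span_iff_repr_mem] at h'
  -- each coordinate of `t` is divisible by `p ^ n`
  have hdvd : ∀ i, ((p : ℤ) ^ n) ∣ b.repr t i := by
    intro i
    obtain ⟨a, ha⟩ := h' i
    rw [hbE, map_smul, Algebra.TensorProduct.basis_repr_tmul] at ha
    simp only [one_smul, Finsupp.smul_apply, Finsupp.mapRange_apply, smul_eq_mul, eq_intCast,
      PadicInt.algebraMap_apply] at ha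
    have hp0 : (p : ℚ_[p]) ^ n ≠ 0 := pow_ne_zero _ (by exact_mod_cast (Fact.out : p.Prime).ne_zero)
    have hval : ((b.repr t i : ℤ) : ℚ_[p]) = (p : ℚ_[p]) ^ n * (a : ℚ_[p]) := by
      rw [ha]; field_simp
    rw [← Padic.norm_int_le_pow_iff_dvd, hval, norm_mul, norm_pow, Padic.norm_p, zpow_neg,
      zpow_natCast, inv_pow]
    have hnn : (0 : ℝ) ≤ ((p : ℝ) ^ n)⁻¹ := by positivity
    calc ((p : ℝ) ^ n)⁻¹ * ‖(a : ℚ_[p])‖ ≤ ((p : ℝ) ^ n)⁻¹ * 1 :=
          mul_le_mul_of_nonneg_left (PadicInt.norm_le_one a) hnn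
      _ = ((p : ℝ) ^ n)⁻¹ := mul_one _
  rw [Ideal.mem_span_singleton, ← b.sum_repr t]
  refine Finset.dvd_sum fun i _ => ?_
  obtain ⟨k, hk⟩ := hdvd i
  rw [hk, mul_smul, zsmul_eq_mul]
  refine Dvd.intro (k • b i) ?_
  push_cast
  rfl

end Coordinates

section Strict

variable (p : ℕ) [Fact p.Prime]
variable (B : Type) [CommRing B] [Module.Finite ℤ B] [Module.Free ℤ B]
variable {ι : Type} [Finite ι] (L : ι → Type) [∀ j, Field (L j)] [∀ j, Algebra ℚ_[p] (L j)]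
  [∀ j, Algebra ℤ_[p] (L j)] [∀ j, IsScalarTower ℤ_[p] ℚ_[p] (L j)]
  [∀ j, FiniteDimensional ℚ_[p] (L j)]
variable (Φ : (ℚ_[p] ⊗[ℤ] B) →ₐ[ℚ_[p]] (∀ j, L j))

/-- The `j`-th point, with values in the field `L j`. -/
def ptL (j : ι) : B →+* L j :=
  (Pi.evalRingHom L j).comp
    ((Φ : (ℚ_[p] ⊗[ℤ] B) →+* (∀ j, L j)).comp
      (Algebra.TensorProduct.includeRight : B →ₐ[ℤ] ℚ_[p] ⊗[ℤ] B).toRingHom)

theorem ptL_apply (j : ι) (t : B) : ptL p B L Φ j t = Φ ((1 : ℚ_[p]) ⊗ₜ[ℤ] t) j := rfl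

theorem isIntegral_ptL (j : ι) (t : B) : IsIntegral ℤ_[p] (ptL p B L Φ j t) := by
  have h1 : IsIntegral ℤ t := Algebra.IsIntegral.isIntegral (R := ℤ) t
  have h2 : IsIntegral ℤ (ptL p B L Φ j t) := h1.map (ptL p B L Φ j).toIntAlgHom
  exact h2.tower_top

/-- The `j`-th point, with values in the ring of integers of `L j`. -/
def pt (j : ι) : B →+* intRing p (L j) where
  toFun t := ⟨ptL p B L Φ j t, isIntegral_ptL p B L Φ j t⟩
  map_one' := Subtype.ext (map_one _)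
  map_mul' x y := Subtype.ext (map_mul _ x y)
  map_zero' := Subtype.ext (map_zero _)
  map_add' x y := Subtype.ext (map_add _ x y)

theorem coe_pt (j : ι) (t : B) :
    ((pt p B L Φ j t : intRing p (L j)) : L j) = Φ ((1 : ℚ_[p]) ⊗ₜ[ℤ] t) j := rfl

/-- The `ℤ_[p]`-submodule of `E` of elements all of whose components are integral. -/
def intSub : Submodule ℤ_[p] (ℚ_[p] ⊗[ℤ] B) :=
  Submodule.comap (Φ.toLinearMap.restrictScalars ℤ_[p])
    (Submodule.pi Set.univ fun j => Subalgebra.toSubmodule (intRing p (L j)))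

theorem mem_intSub (e : ℚ_[p] ⊗[ℤ] B) :
    e ∈ intSub p B L Φ ↔ ∀ j, IsIntegral ℤ_[p] (Φ e j) := by
  unfold intSub
  rw [Submodule.mem_comap, Submodule.mem_pi]
  constructor
  · intro h j
    exact h j (Set.mem_univ j)
  · intro h j _
    exact h j

/-- The comparison map from `intSub` to the product of the rings of integers. -/
def intSubToPi : intSub p B L Φ →ₗ[ℤ_[p]] (∀ j, intRing p (L j)) where
  toFun w := fun j => ⟨Φ w.1 j, (mem_intSub p B L Φ w.1).mp w.2 j⟩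
  map_add' x y := by
    funext j
    apply Subtype.ext
    simp
  map_smul' a x := by
    funext j
    apply Subtype.ext
    have h : Φ (a • (x : ℚ_[p] ⊗[ℤ] B)) = a • Φ (x : ℚ_[p] ⊗[ℤ] B) :=
      (Φ.toLinearMap.restrictScalars ℤ_[p]).map_smul a x.1
    simp [h]

variable {p B L Φ} in
theorem intSubToPi_injective (hΦ : Function.Injective Φ) :
    Function.Injective (intSubToPi p B L Φ) := by
  intro x y h
  apply Subtype.ext
  apply hΦ
  funext j
  have := congrArg (fun f : (∀ j, intRing p (L j)) => ((f j : intRing p (L j)) : L j)) h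
  exact this

variable {p B L Φ} in
theorem intSub_fg (hΦ : Function.Injective Φ) : (intSub p B L Φ).FG := by
  haveI : Fintype ι := Fintype.ofFinite ι
  haveI : Module.Finite ℤ_[p] (∀ j, intRing p (L j)) := Module.Finite.pi
  haveI : IsNoetherian ℤ_[p] (∀ j, intRing p (L j)) := inferInstance
  haveI : Module.Finite ℤ_[p] (intSub p B L Φ) :=
    Module.Finite.of_injective (intSubToPi p B L Φ) (intSubToPi_injective hΦ)
  exact (Submodule.fg_top _).mp (Module.finite_def.mp this)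

variable {p B L Φ} in
/-- A uniform power of `p` maps `intSub` into the lattice. -/
theorem exists_pow_smul_intSub_le (hΦ : Function.Injective Φ) :
    ∃ c : ℕ, ∀ w ∈ intSub p B L Φ, ((p : ℚ_[p]) ^ c) • w ∈ lat p B := by
  classical
  obtain ⟨G, hG⟩ := intSub_fg hΦ
  choose cf hcf using fun e : ℚ_[p] ⊗[ℤ] B => exists_pow_smul_mem_lat p B e
  refine ⟨G.sup cf, fun w hw => ?_⟩
  -- the set of `e` with `p ^ c • e ∈ lat` is a `ℤ_[p]`-submodule containing the generators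
  have hsub : intSub p B L Φ ≤
      Submodule.comap (LinearMap.lsmul ℤ_[p] (ℚ_[p] ⊗[ℤ] B) ((p : ℤ_[p]) ^ G.sup cf))
        (lat p B) := by
    rw [← hG, Submodule.span_le]
    intro g hg
    rw [SetLike.mem_coe, Submodule.mem_comap, LinearMap.lsmul_apply]
    have h1 := hcf g (G.sup cf) (Finset.le_sup (f := cf) hg)
    have h2 : ((p : ℤ_[p]) ^ G.sup cf) • g = ((p : ℚ_[p]) ^ G.sup cf) • g := by
      rw [← algebraMap_smul ℚ_[p] ((p : ℤ_[p]) ^ G.sup cf) g]
      simp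
    rw [h2]
    exact h1
  have h3 := hsub hw
  rw [Submodule.mem_comap, LinearMap.lsmul_apply] at h3
  have h2 : ((p : ℤ_[p]) ^ G.sup cf) • w = ((p : ℚ_[p]) ^ G.sup cf) • w := by
    rw [← algebraMap_smul ℚ_[p] ((p : ℤ_[p]) ^ G.sup cf) w]
    simp
  rw [← h2]
  exact h3

variable {p B L Φ} in
/-- **Joint strictness** of the points `pt j : B → intRing p (L j)`. -/
theorem strict_of_injective (hΦ : Function.Injective Φ) (n : ℕ) :
    ∃ m : ℕ, ∀ t : B,
      (∀ j, pt p B L Φ j t ∈ maximalIdeal (intRing p (L j)) ^ m) →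
        t ∈ Ideal.span {((p : ℕ) : B) ^ n} := by
  classical
  haveI : Fintype ι := Fintype.ofFinite ι
  obtain ⟨c, hc⟩ := exists_pow_smul_intSub_le hΦ
  choose mf hmf using fun j : ι => exists_maximalIdeal_pow_le_span_p_pow p (L j) (n + c)
  refine ⟨Finset.univ.sup mf, fun t ht => ?_⟩
  have hp0 : (p : ℚ_[p]) ≠ 0 := by exact_mod_cast (Fact.out : p.Prime).ne_zero
  apply mem_span_of_inv_smul_mem_lat p B n t
  -- the element `e = p^{-(n+c)} • (1 ⊗ t)` has integral components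
  have he : (((p : ℚ_[p]) ^ (n + c))⁻¹) • ((1 : ℚ_[p]) ⊗ₜ[ℤ] t) ∈ intSub p B L Φ := by
    rw [mem_intSub]
    intro j
    have h1 : pt p B L Φ j t ∈ Ideal.span {((p : ℕ) : intRing p (L j)) ^ (n + c)} :=
      hmf j (Ideal.pow_le_pow_right (Finset.le_sup (f := mf) (Finset.mem_univ j)) (ht j))
    rw [Ideal.mem_span_singleton] at h1
    obtain ⟨y, hy⟩ := h1
    have hy' : Φ ((1 : ℚ_[p]) ⊗ₜ[ℤ] t) j = (p : L j) ^ (n + c) * (y : L j) := by
      have := congrArg (fun x : intRing p (L j) => (x : L j)) hy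
      simpa [coe_pt] using this
    have hpL : (p : L j) ≠ 0 := by
      haveI : CharZero (L j) := charZero_of_injective_algebraMap (algebraMap ℚ_[p] (L j)).injective
      exact_mod_cast (Fact.out : p.Prime).ne_zero
    have hval : Φ ((((p : ℚ_[p]) ^ (n + c))⁻¹) • ((1 : ℚ_[p]) ⊗ₜ[ℤ] t)) j = (y : L j) := by
      rw [map_smul, Pi.smul_apply, hy', Algebra.smul_def, map_inv₀, map_pow, map_natCast]
      field_simp
    rw [hval]
    exact y.2
  have h2 := hc _ he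
  have h3 : ((p : ℚ_[p]) ^ c) • ((((p : ℚ_[p]) ^ (n + c))⁻¹) • ((1 : ℚ_[p]) ⊗ₜ[ℤ] t)) =
      (((p : ℚ_[p]) ^ n)⁻¹) • ((1 : ℚ_[p]) ⊗ₜ[ℤ] t) := by
    rw [smul_smul]
    congr 1
    rw [pow_add]
    field_simp
  rw [h3] at h2
  exact h2

end Strict

end Fermat.Agent.S31.H262
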